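import Mathlib.AlgebraicGeometry.EllipticCurve.Affine.Point

/-!
# The map on points induced by a ring homomorphism of fields

For fields `F`, `K`, a ring homomorphism `φ : F →+* K`, a Weierstrass curve `W` over `F` and a
Weierstrass curve `W'` over `K` with `W.map φ = W'`, the map `(x, y) ↦ (φ x, φ y)` is a group
homomorphism `W.Point →+ W'.Point`.  (Mathlib's `Point.map` is only available for algebra maps
over the base ring of the curve.)
-/

set_option autoImplicit false

namespace Fermat.Agent.S52.H56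

open WeierstrassCurve WeierstrassCurve.Affine

variable {F K L : Type*} [Field F] [Field K] [Field L]

/-- Two affine points with equal coordinates are equal. -/
lemma some_congr' {W : Affine F} {x₁ y₁ x₂ y₂ : F} (h₁ : W.Nonsingular x₁ y₁)
    (h₂ : W.Nonsingular x₂ y₂) (hx : x₁ = x₂) (hy : y₁ = y₂) :
    Point.some x₁ y₁ h₁ = Point.some x₂ y₂ h₂ := by
  subst hx hy
  rfl

lemma nonsingular_map_of_eq (φ : F →+* K) {W : WeierstrassCurve F} {W' : WeierstrassCurve K}
    (hW : W.map φ = W') {x y : F} (h : W.toAffine.Nonsingular x y) :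
    W'.toAffine.Nonsingular (φ x) (φ y) := by
  subst hW
  exact (W.toAffine.map_nonsingular φ.injective x y).mpr h

/-- The underlying function of `ptMap`. -/
def ptMapFun (φ : F →+* K) {W : WeierstrassCurve F} {W' : WeierstrassCurve K}
    (hW : W.map φ = W') : W.toAffine.Point → W'.toAffine.Point
  | .zero => .zero
  | .some x y h => .some (φ x) (φ y) (nonsingular_map_of_eq φ hW h)

variable [DecidableEq F] [DecidableEq K] [DecidableEq L]

lemma ptMapFun_add (φ : F →+* K) {W : WeierstrassCurve F} {W' : WeierstrassCurve K}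
    (hW : W.map φ = W') (P Q : W.toAffine.Point) :
    ptMapFun φ hW (P + Q) = ptMapFun φ hW P + ptMapFun φ hW Q := by
  subst hW
  rcases P with _ | ⟨x₁, y₁, h₁⟩
  · change ptMapFun φ rfl (0 + Q) = 0 + ptMapFun φ rfl Q
    rw [zero_add, zero_add]
  rcases Q with _ | ⟨x₂, y₂, h₂⟩
  · change ptMapFun φ rfl (Point.some x₁ y₁ h₁ + 0) = ptMapFun φ rfl (Point.some x₁ y₁ h₁) + 0
    rw [add_zero, add_zero]
  by_cases hxy : x₁ = x₂ ∧ y₁ = W.toAffine.negY x₂ y₂
  · rw [Point.add_of_Y_eq hxy.1 hxy.2]
    change (0 : (W.map φ).toAffine.Point) = Point.some (φ x₁) (φ y₁) _ + Point.some (φ x₂) (φ y₂) _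
    rw [Point.add_of_Y_eq (congrArg φ hxy.1) (by rw [hxy.2, Affine.map_negY])]
  · have hxy' : ¬(φ x₁ = φ x₂ ∧ φ y₁ = (W.map φ).toAffine.negY (φ x₂) (φ y₂)) := by
      rintro ⟨hx, hy⟩
      rw [Affine.map_negY] at hy
      exact hxy ⟨φ.injective hx, φ.injective hy⟩
    rw [Point.add_some hxy]
    change Point.some (φ _) (φ _) _ = Point.some (φ x₁) (φ y₁) _ + Point.some (φ x₂) (φ y₂) _
    rw [Point.add_some hxy']
    refine some_congr' _ _ ?_ ?_
    · rw [Affine.map_slope, Affine.map_addX]
    · rw [Affine.map_slope, Affine.map_addY]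

/-- The group homomorphism on points induced by a ring homomorphism of fields. -/
def ptMap (φ : F →+* K) {W : WeierstrassCurve F} {W' : WeierstrassCurve K}
    (hW : W.map φ = W') : W.toAffine.Point →+ W'.toAffine.Point where
  toFun := ptMapFun φ hW
  map_zero' := rfl
  map_add' := ptMapFun_add φ hW

@[simp] lemma ptMap_zero (φ : F →+* K) {W : WeierstrassCurve F} {W' : WeierstrassCurve K}
    (hW : W.map φ = W') : ptMap φ hW (Point.zero) = 0 := rfl

lemma ptMap_some (φ : F →+* K) {W : WeierstrassCurve F} {W' : WeierstrassCurve K}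
    (hW : W.map φ = W') {x y : F} (h : W.toAffine.Nonsingular x y) :
    ptMap φ hW (Point.some x y h) = Point.some (φ x) (φ y) (nonsingular_map_of_eq φ hW h) := rfl

lemma ptMap_injective (φ : F →+* K) {W : WeierstrassCurve F} {W' : WeierstrassCurve K}
    (hW : W.map φ = W') : Function.Injective (ptMap φ hW) := by
  rintro (_ | ⟨x₁, y₁, h₁⟩) (_ | ⟨x₂, y₂, h₂⟩) h
  · rfl
  · rw [ptMap_some] at h
    cases h
  · rw [ptMap_some] at h
    cases h
  · rw [ptMap_some, ptMap_some] at h
    have h' := Point.some.inj h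
    exact some_congr' _ _ (φ.injective h'.1) (φ.injective h'.2)

lemma ptMap_comp (φ : F →+* K) (ψ : K →+* L) {W : WeierstrassCurve F} {W' : WeierstrassCurve K}
    {W'' : WeierstrassCurve L} (hW : W.map φ = W') (hW' : W'.map ψ = W'')
    (hW'' : W.map (ψ.comp φ) = W'') (P : W.toAffine.Point) :
    ptMap ψ hW' (ptMap φ hW P) = ptMap (ψ.comp φ) hW'' P := by
  rcases P with _ | ⟨x, y, h⟩
  · rfl
  · rfl

end Fermat.Agent.S52.H56
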