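import Mathlib
import Fermat.Agent.S05.H98.VarChangePoint
import Fermat.Agent.S52.H56.PtMap

/-!
# Transfer of the Cayley-Hamilton identity from the twisted curve to all points

`E : y² = x³ + A x + B` over `ZMod ℓ`, `K = RatFunc (ZMod ℓ)`, `lam = t³ + A t + B`, twisted curve
`Y² = X³ + A lam² X + B lam³` over `K` with the point `P0 = (lam t, lam²)` and the endomorphism
`Φ (X, Y) = (X^ℓ / lam^(ℓ-1), Y^ℓ / lam^(3(ℓ-1)/2))`.  If
`2 • (Φ (Φ P0) - a • Φ P0 + ℓ • P0) = 0`, then for every field `M` over `ZMod ℓ` and every point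
`S` of `E` over `M`, `2 • (π (π S) - a • π S + ℓ • S) = 0`, where `π` is the Frobenius
`(x, y) ↦ (x^ℓ, y^ℓ)`.

The proof uses only maps on points induced by field homomorphisms: for `S = (u, v)` with `u`
transcendental, `t ↦ u` gives a field homomorphism `K → M`; an arbitrary `S` is the difference of
the two transcendental points `S + P'` and `P'` over a bigger field.
-/

set_option autoImplicit false

namespace Fermat.Agent.S52.H56

open WeierstrassCurve WeierstrassCurve.Affine Polynomial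
open Fermat.Agent.S05.H98

/-- The short Weierstrass curve `y² = x³ + a x + b`. -/
def shortCurve {R : Type*} [CommRing R] (a b : R) : WeierstrassCurve R := ⟨0, 0, 0, a, b⟩

lemma shortCurve_map {R S : Type*} [CommRing R] [CommRing S] (φ : R →+* S) (a b : R) :
    (shortCurve a b).map φ = shortCurve (φ a) (φ b) := by
  simp [shortCurve, WeierstrassCurve.map]

lemma shortCurve_equation {F : Type*} [Field F] {a b x y : F}
    (h : (shortCurve a b).toAffine.Nonsingular x y) : y ^ 2 = x ^ 3 + a * x + b := by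
  have h1 := (Affine.equation_iff x y).mp h.1
  simpa [shortCurve] using h1

lemma shortCurve_nonsingular {F : Type*} [Field F] {a b x y : F}
    (h : y ^ 2 = x ^ 3 + a * x + b) (hy : y ≠ 0) (h2 : (2 : F) ≠ 0) :
    (shortCurve a b).toAffine.Nonsingular x y := by
  rw [Affine.nonsingular_iff]
  refine ⟨?_, Or.inr ?_⟩
  · rw [Affine.equation_iff]
    simpa [shortCurve] using h
  · simp only [shortCurve, zero_mul, sub_zero]
    intro h'
    have : 2 * y = 0 := by linear_combination h'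
    rcases mul_eq_zero.mp this with h3 | h3
    · exact h2 h3
    · exact hy h3

/-- Scaling `y² = x³ + a v⁴ x + b v⁶` to `y² = x³ + a x + b`. -/
lemma smul_shortCurve {F : Type*} [Field F] (a b : F) (v : Fˣ) :
    (⟨v, 0, 0, 0⟩ : VariableChange F) • shortCurve (a * (v : F) ^ 4) (b * (v : F) ^ 6) =
      shortCurve a b := by
  have hv : (v : F) ≠ 0 := v.ne_zero
  ext
  · simp [shortCurve, variableChange_a₁]
  · simp [shortCurve, variableChange_a₂]
  · simp [shortCurve, variableChange_a₃]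
  · simp only [shortCurve, variableChange_a₄]
    simp only [Units.val_inv_eq_inv_val]
    field_simp
    ring
  · simp only [shortCurve, variableChange_a₆]
    simp only [Units.val_inv_eq_inv_val]
    field_simp
    ring

lemma inv_pow_succ_mul_pow {F : Type*} [Field F] {v : F} (hv : v ≠ 0) (c e : ℕ) :
    ((v⁻¹) ^ c) ^ (e + 1) * (v ^ c) ^ e = (v⁻¹) ^ c := by
  rw [pow_succ, mul_assoc, mul_comm ((v⁻¹) ^ c) ((v ^ c) ^ e), ← mul_assoc, ← mul_pow, ← mul_pow,
    inv_mul_cancel₀ hv, one_pow, one_pow, one_mul]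

section StepA

variable {ℓ : ℕ} [Fact ℓ.Prime]

/-- `lam = t³ + A t + B` in `RatFunc (ZMod ℓ)`. -/
noncomputable def lamK (A B : ZMod ℓ) : RatFunc (ZMod ℓ) :=
  RatFunc.X ^ 3 + RatFunc.C A * RatFunc.X + RatFunc.C B

/-- The twisted curve `Y² = X³ + A lam² X + B lam³` over `RatFunc (ZMod ℓ)`. -/
noncomputable def twCurve (A B : ZMod ℓ) : WeierstrassCurve (RatFunc (ZMod ℓ)) :=
  shortCurve (RatFunc.C A * lamK A B ^ 2) (RatFunc.C B * lamK A B ^ 3)

variable {M : Type*} [Field M]

/-- Evaluation `RatFunc (ZMod ℓ) → M`, `t ↦ u`, at an element `u` which is transcendental. -/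
noncomputable def evTr (j : ZMod ℓ →+* M) (u : M)
    (hu : ∀ p : (ZMod ℓ)[X], p ≠ 0 → p.eval₂ j u ≠ 0) : RatFunc (ZMod ℓ) →+* M :=
  RatFunc.liftRingHom (Polynomial.eval₂RingHom j u) (by
    intro p hp
    rw [Submonoid.mem_comap, mem_nonZeroDivisors_iff_ne_zero]
    exact hu p (mem_nonZeroDivisors_iff_ne_zero.mp hp))

lemma evTr_X (j : ZMod ℓ →+* M) (u : M) (hu : ∀ p : (ZMod ℓ)[X], p ≠ 0 → p.eval₂ j u ≠ 0) :
    evTr j u hu RatFunc.X = u := by
  simp [evTr, RatFunc.liftRingHom_X]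

lemma evTr_C (j : ZMod ℓ →+* M) (u : M) (hu : ∀ p : (ZMod ℓ)[X], p ≠ 0 → p.eval₂ j u ≠ 0)
    (c : ZMod ℓ) : evTr j u hu (RatFunc.C c) = j c := by
  simp [evTr, RatFunc.liftRingHom_C]

lemma evTr_lamK (j : ZMod ℓ →+* M) (u : M) (hu : ∀ p : (ZMod ℓ)[X], p ≠ 0 → p.eval₂ j u ≠ 0)
    (A B : ZMod ℓ) : evTr j u hu (lamK A B) = u ^ 3 + j A * u + j B := by
  simp [lamK, evTr_X, evTr_C]

/-- **Transfer, transcendental case.**  If the identity holds at `P0` on the twisted curve, it
holds at every point `S = (u, v)` (over any field `M`) whose `x`-coordinate is transcendental. -/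
theorem transfer_transcendental (hℓ2 : ℓ ≠ 2) (A B : ZMod ℓ)
    [DecidableEq (RatFunc (ZMod ℓ))] [DecidableEq M] (j : ZMod ℓ →+* M)
    (Φ : (twCurve A B).toAffine.Point →+ (twCurve A B).toAffine.Point)
    (hΦ : ∀ X Y (h : (twCurve A B).toAffine.Nonsingular X Y), ∃ X' Y' h',
      Φ (.some X Y h) = .some X' Y' h' ∧ X' * lamK A B ^ (ℓ - 1) = X ^ ℓ ∧
        Y' * lamK A B ^ (3 * ((ℓ - 1) / 2)) = Y ^ ℓ)
    (P0 : (twCurve A B).toAffine.Point)
    (hP0 : ∃ h, P0 = .some (lamK A B * RatFunc.X) (lamK A B ^ 2) h)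
    (π : (shortCurve (j A) (j B)).toAffine.Point →+ (shortCurve (j A) (j B)).toAffine.Point)
    (hπ : ∀ x y (h : (shortCurve (j A) (j B)).toAffine.Nonsingular x y), ∃ h',
      π (.some x y h) = .some (x ^ ℓ) (y ^ ℓ) h')
    (a : ℤ) (hG : 2 • (Φ (Φ P0) - a • Φ P0 + (ℓ : ℤ) • P0) = 0)
    {u v : M} (hS : (shortCurve (j A) (j B)).toAffine.Nonsingular u v)
    (hu : ∀ p : (ZMod ℓ)[X], p ≠ 0 → p.eval₂ j u ≠ 0) :
    2 • (π (π (.some u v hS)) - a • π (.some u v hS) + (ℓ : ℤ) • (Point.some u v hS)) = 0 := by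
  have hprime : ℓ.Prime := Fact.out
  have hodd : ℓ % 2 = 1 := by
    rcases hprime.eq_two_or_odd with h | h
    · exact absurd h hℓ2
    · exact h
  obtain ⟨e, he⟩ : ∃ e, ℓ = e + 1 := ⟨ℓ - 1, by have := hprime.pos; omega⟩
  have hhalf : 2 * ((ℓ - 1) / 2) = e := by omega
  have hℓ1 : ℓ - 1 = e := by omega
  have hpow : ∀ x : M, x ^ ℓ = x ^ (e + 1) := fun x => congrArg (x ^ ·) he
  have hv2 : v ^ 2 = u ^ 3 + j A * u + j B := shortCurve_equation hS
  have hv0 : v ≠ 0 := by
    intro hv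
    have hp : (X ^ 3 + C A * X + C B : (ZMod ℓ)[X]) ≠ 0 := by
      intro h0
      have := congrArg (fun q => q.coeff 3) h0
      simp at this
    refine hu _ hp ?_
    simp only [eval₂_add, eval₂_mul, eval₂_pow, eval₂_X, eval₂_C]
    rw [← hv2, hv]
    ring
  set ev := evTr j u hu with hev
  have hevlam : ev (lamK A B) = v ^ 2 := by rw [hev, evTr_lamK, hv2]
  have hW1 : (twCurve A B).map ev = shortCurve (j A * v ^ 4) (j B * v ^ 6) := by
    rw [twCurve, shortCurve_map, map_mul, map_mul, map_pow, map_pow, hevlam, hev, evTr_C, evTr_C]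
    congr 1 <;> ring
  let Cv : VariableChange M := ⟨Units.mk0 v hv0, 0, 0, 0⟩
  have hW2 : Cv • shortCurve (j A * v ^ 4) (j B * v ^ 6) = shortCurve (j A) (j B) :=
    smul_shortCurve (j A) (j B) (Units.mk0 v hv0)
  let θ : (twCurve A B).toAffine.Point →+ (shortCurve (j A) (j B)).toAffine.Point :=
    (pointEquivOfEq Cv _ _ hW2).toAddMonoidHom.comp (ptMap ev hW1)
  have hθ : ∀ X Y (h : (twCurve A B).toAffine.Nonsingular X Y), ∃ h',
      θ (.some X Y h) = .some ((v⁻¹) ^ 2 * ev X) ((v⁻¹) ^ 3 * ev Y) h' := by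
    intro X Y h
    have h1 : θ (.some X Y h) = pointEquivOfEq Cv _ _ hW2 (ptMap ev hW1 (.some X Y h)) := rfl
    rw [ptMap_some, pointEquivOfEq_some] at h1
    have hx : vcX Cv (ev X) = (v⁻¹) ^ 2 * ev X := by simp [vcX, Cv]
    have hy : vcY Cv (ev X) (ev Y) = (v⁻¹) ^ 3 * ev Y := by simp [vcY, Cv]
    have hns := nonsingular_of_eq Cv _ hW2 (nonsingular_map_of_eq ev hW1 h)
    rw [hx, hy] at hns
    exact ⟨hns, h1.trans (some_congr' _ _ hx hy)⟩
  -- θ P0 = S
  have key1 : θ P0 = .some u v hS := by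
    obtain ⟨h0, rfl⟩ := hP0
    obtain ⟨h', hh⟩ := hθ _ _ h0
    rw [hh]
    refine some_congr' _ _ ?_ ?_
    · rw [map_mul, hevlam, hev, evTr_X]
      field_simp
    · rw [map_pow, hevlam]
      field_simp
  -- θ ∘ Φ = π ∘ θ
  have key2 : ∀ P, θ (Φ P) = π (θ P) := by
    rintro (_ | ⟨X, Y, h⟩)
    · change θ (Φ 0) = π (θ 0)
      rw [map_zero, map_zero, map_zero]
    · obtain ⟨X', Y', h', hΦeq, hX, hY⟩ := hΦ X Y h
      obtain ⟨h1, hh1⟩ := hθ X Y h
      obtain ⟨h2, hh2⟩ := hθ X' Y' h'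
      obtain ⟨h3, hh3⟩ := hπ _ _ h1
      rw [hΦeq, hh2, hh1, hh3]
      have hX' : ev X' * (v ^ 2) ^ e = (ev X) ^ (e + 1) := by
        have := congrArg ev hX
        rw [map_mul, map_pow, map_pow, hevlam, hℓ1, hpow] at this
        exact this
      have hY' : ev Y' * (v ^ 3) ^ e = (ev Y) ^ (e + 1) := by
        have := congrArg ev hY
        rw [map_mul, map_pow, map_pow, hevlam, hpow] at this
        have h3e : (v ^ 2) ^ (3 * ((ℓ - 1) / 2)) = (v ^ 3) ^ e := by
          rw [← pow_mul, ← pow_mul]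
          congr 1
          omega
        rw [h3e] at this
        exact this
      refine some_congr' _ _ ?_ ?_
      · rw [hpow, mul_pow, ← hX', mul_comm (ev X') _, ← mul_assoc, inv_pow_succ_mul_pow hv0]
      · rw [hpow, mul_pow, ← hY', mul_comm (ev Y') _, ← mul_assoc, inv_pow_succ_mul_pow hv0]
  have := congrArg θ hG
  simpa only [map_nsmul, map_sub, map_add, map_zsmul, map_zero, key2, key1] using this

end StepA

section Generic

variable {M : Type*} [Field M] [DecidableEq M] [DecidableEq (AlgebraicClosure (RatFunc M))]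

/-- The base change of points to `AlgebraicClosure (RatFunc M)`. -/
noncomputable abbrev bcBig (a b : M) :
    (shortCurve a b).toAffine.Point →+
      (shortCurve (algebraMap M (AlgebraicClosure (RatFunc M)) a)
        (algebraMap M (AlgebraicClosure (RatFunc M)) b)).toAffine.Point :=
  ptMap (algebraMap M (AlgebraicClosure (RatFunc M))) (shortCurve_map _ a b)

local notation "Mbig" => AlgebraicClosure (RatFunc M)

local notation "ι0" => algebraMap M (AlgebraicClosure (RatFunc M))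

/-- There is a point `P'` over `AlgebraicClosure (RatFunc M)` such that `P'` and all translates
`S + P'` of points `S` defined over `M` are affine with `x`-coordinate transcendental over `M`. -/
theorem exists_generic_point (a b : M) (h2 : (2 : M) ≠ 0) :
    ∃ P' : (shortCurve (ι0 a) (ι0 b)).toAffine.Point,
      ∀ S : (shortCurve a b).toAffine.Point, ∃ x y h,
        bcBig a b S + P' = .some x y h ∧ ¬ IsAlgebraic M x := by
  -- the generic point
  have ht'tr : ¬ IsAlgebraic M (algebraMap (RatFunc M) Mbig RatFunc.X) := by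
    have h1 : Transcendental M (RatFunc.X : RatFunc M) := RatFunc.transcendental_X
    have h2 : Transcendental M (algebraMap (RatFunc M) Mbig RatFunc.X) :=
      (transcendental_algebraMap_iff (FaithfulSMul.algebraMap_injective (RatFunc M) Mbig)).mpr h1
    exact h2
  generalize algebraMap (RatFunc M) Mbig RatFunc.X = t' at ht'tr
  obtain ⟨s', hs'⟩ : ∃ s' : Mbig, s' ^ 2 = t' ^ 3 + ι0 a * t' + ι0 b :=
    IsAlgClosed.exists_pow_nat_eq _ (by norm_num)
  have hs'0 : s' ≠ 0 := by
    intro h0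
    apply ht'tr
    refine ⟨X ^ 3 + C a * X + C b, ?_, ?_⟩
    · intro h0'
      have := congrArg (fun q => q.coeff 3) h0'
      simp at this
    · simp only [map_add, map_mul, map_pow, aeval_X, aeval_C]
      rw [← hs', h0]
      ring
  have h2' : (2 : Mbig) ≠ 0 := by
    have : (2 : Mbig) = ι0 2 := (map_ofNat ι0 2).symm
    rw [this]
    exact (map_ne_zero ι0).mpr h2
  have hP'ns : (shortCurve (ι0 a) (ι0 b)).toAffine.Nonsingular t' s' :=
    shortCurve_nonsingular hs' hs'0 h2'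
  refine ⟨.some t' s' hP'ns, fun S => ?_⟩
  -- the subfield of algebraic elements
  let La : IntermediateField M Mbig := algebraicClosure M Mbig
  have : DecidableEq La := Classical.decEq La
  let φa : La →+* Mbig := algebraMap La Mbig
  have hρ : (shortCurve (algebraMap M La a) (algebraMap M La b)).map φa =
      shortCurve (ι0 a) (ι0 b) := by
    rw [shortCurve_map]
    rfl
  let ρ := ptMap φa hρ
  -- points with algebraic x-coordinate are in the range of ρ
  have B3 : ∀ x y (h : (shortCurve (ι0 a) (ι0 b)).toAffine.Nonsingular x y),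
      IsAlgebraic M x → ∃ Q, ρ Q = .some x y h := by
    intro x y h hx
    have hxa : x ∈ La := mem_algebraicClosure_iff.mpr hx
    have hy2 : y ^ 2 ∈ La := by
      rw [shortCurve_equation h]
      exact add_mem (add_mem (pow_mem hxa 3) (mul_mem (algebraMap_mem La a) hxa))
        (algebraMap_mem La b)
    have hya : y ∈ La :=
      mem_algebraicClosure_iff.mpr ((mem_algebraicClosure_iff.mp hy2).of_pow (by norm_num))
    have hns : ((shortCurve (algebraMap M La a) (algebraMap M La b)).map φa).toAffine.Nonsingular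
        (φa ⟨x, hxa⟩) (φa ⟨y, hya⟩) := by
      rw [hρ]
      exact h
    have hns' := (Affine.map_nonsingular (W := (shortCurve (algebraMap M La a)
      (algebraMap M La b)).toAffine) φa.injective ⟨x, hxa⟩ ⟨y, hya⟩).mp hns
    exact ⟨.some _ _ hns', rfl⟩
  -- ι S is in the range of ρ
  have B1 : ∃ Q, ρ Q = bcBig a b S := by
    rcases S with _ | ⟨x, y, h⟩
    · exact ⟨0, rfl⟩
    · have hx : IsAlgebraic M (ι0 x) := isAlgebraic_algebraMap x
      exact B3 _ _ _ hx
  -- P' is not in the range of ρ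
  have B2 : ∀ Q, ρ Q ≠ .some t' s' hP'ns := by
    rintro (_ | ⟨x, y, h⟩) hQ
    · change Point.zero = Point.some t' s' _ at hQ
      cases hQ
    · have h1 : ρ (.some x y h) = .some (φa x) (φa y) (nonsingular_map_of_eq φa hρ h) := rfl
      rw [h1] at hQ
      have h3 := (Point.some.inj hQ).1
      apply ht'tr
      rw [← h3]
      exact mem_algebraicClosure_iff.mp x.2
  -- hence S + P' is not in the range of ρ
  obtain ⟨Q1, hQ1⟩ := B1
  have B4 : ∀ Q, ρ Q ≠ bcBig a b S + .some t' s' hP'ns := by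
    intro Q hQ
    apply B2 (Q - Q1)
    rw [map_sub, hQ, hQ1]
    abel
  generalize bcBig a b S + .some t' s' hP'ns = S' at B4 ⊢
  rcases S' with _ | ⟨x, y, h⟩
  · exact absurd (show ρ 0 = Point.zero from rfl) (B4 0)
  · refine ⟨x, y, h, rfl, fun hx => ?_⟩
    obtain ⟨Q, hQ⟩ := B3 x y h hx
    exact B4 Q hQ

end Generic

section Main

lemma two_smul_aux {G : Type*} [AddCommGroup G] (f : G →+ G) (a n : ℤ) (X Y : G)
    (h1 : 2 • (f (f (X + Y)) - a • f (X + Y) + n • (X + Y)) = 0)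
    (h2 : 2 • (f (f Y) - a • f Y + n • Y) = 0) : 2 • (f (f X) - a • f X + n • X) = 0 := by
  have e1 : 2 • (f (f (X + Y)) - a • f (X + Y) + n • (X + Y)) =
      2 • (f (f X) - a • f X + n • X) + 2 • (f (f Y) - a • f Y + n • Y) := by
    simp only [map_add, smul_add, smul_sub]
    abel
  rw [e1, h2, add_zero] at h1
  exact h1

variable {ℓ : ℕ} [Fact ℓ.Prime]

/-- **Transfer.**  Let `Φ` be the Frobenius endomorphism of the twisted curve
`Y² = X³ + A lam² X + B lam³` over `RatFunc (ZMod ℓ)` and `P0 = (lam t, lam²)`.  If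
`2 • (Φ (Φ P0) - a • Φ P0 + ℓ • P0) = 0`, then `2 • (π (π S) - a • π S + ℓ • S) = 0` for every
point `S` of `y² = x³ + A x + B` over every field `M` of characteristic `ℓ`, where `π` is the
Frobenius endomorphism `(x, y) ↦ (x^ℓ, y^ℓ)`. -/
theorem transfer (hℓ2 : ℓ ≠ 2) (A B : ZMod ℓ) [DecidableEq (RatFunc (ZMod ℓ))]
    (Φ : (twCurve A B).toAffine.Point →+ (twCurve A B).toAffine.Point)
    (hΦ : ∀ X Y (h : (twCurve A B).toAffine.Nonsingular X Y), ∃ X' Y' h',
      Φ (.some X Y h) = .some X' Y' h' ∧ X' * lamK A B ^ (ℓ - 1) = X ^ ℓ ∧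
        Y' * lamK A B ^ (3 * ((ℓ - 1) / 2)) = Y ^ ℓ)
    (P0 : (twCurve A B).toAffine.Point)
    (hP0 : ∃ h, P0 = .some (lamK A B * RatFunc.X) (lamK A B ^ 2) h)
    (a : ℤ) (hG : 2 • (Φ (Φ P0) - a • Φ P0 + (ℓ : ℤ) • P0) = 0)
    {M : Type*} [Field M] [DecidableEq M] (j : ZMod ℓ →+* M)
    (π : (shortCurve (j A) (j B)).toAffine.Point →+ (shortCurve (j A) (j B)).toAffine.Point)
    (hπ : ∀ x y (h : (shortCurve (j A) (j B)).toAffine.Nonsingular x y), ∃ h',
      π (.some x y h) = .some (x ^ ℓ) (y ^ ℓ) h')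
    (S : (shortCurve (j A) (j B)).toAffine.Point) :
    2 • (π (π S) - a • π S + (ℓ : ℤ) • S) = 0 := by
  classical
  have hprime : ℓ.Prime := Fact.out
  have h2 : (2 : M) ≠ 0 := by
    have h2' : (2 : ZMod ℓ) ≠ 0 := by
      intro h
      have h' : ((2 : ℕ) : ZMod ℓ) = 0 := by exact_mod_cast h
      have hdvd := (ZMod.natCast_eq_zero_iff 2 ℓ).mp h'
      have := Nat.le_of_dvd (by norm_num) hdvd
      have := hprime.two_le
      omega
    have : (2 : M) = j 2 := (map_ofNat j 2).symm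
    rw [this]
    exact (map_ne_zero j).mpr h2'
  obtain ⟨P', hP'⟩ := exists_generic_point (j A) (j B) h2
  have : CharP (AlgebraicClosure (RatFunc M)) ℓ :=
    charP_of_injective_ringHom ((algebraMap M (AlgebraicClosure (RatFunc M))).comp j).injective ℓ
  let j' : ZMod ℓ →+* AlgebraicClosure (RatFunc M) :=
    (algebraMap M (AlgebraicClosure (RatFunc M))).comp j
  have hfix : (shortCurve (j' A) (j' B)).map (frobenius (AlgebraicClosure (RatFunc M)) ℓ) =
      shortCurve (j' A) (j' B) := by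
    rw [shortCurve_map, frobenius_def, frobenius_def, ← map_pow, ← map_pow, ZMod.pow_card,
      ZMod.pow_card]
  let π' := ptMap (frobenius (AlgebraicClosure (RatFunc M)) ℓ) hfix
  have hπ' : ∀ x y (h : (shortCurve (j' A) (j' B)).toAffine.Nonsingular x y), ∃ h',
      π' (.some x y h) = .some (x ^ ℓ) (y ^ ℓ) h' := fun x y h => ⟨_, rfl⟩
  have key : ∀ Q : (shortCurve (j' A) (j' B)).toAffine.Point,
      (∃ x y h, Q = .some x y h ∧ ¬ IsAlgebraic M x) →
        2 • (π' (π' Q) - a • π' Q + (ℓ : ℤ) • Q) = 0 := by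
    rintro Q ⟨x, y, h, rfl, hx⟩
    refine transfer_transcendental hℓ2 A B j' Φ hΦ P0 hP0 π' hπ' a hG h ?_
    intro p hp h0
    apply hx
    refine ⟨p.map j, (Polynomial.map_ne_zero_iff j.injective).mpr hp, ?_⟩
    rw [aeval_def, eval₂_map]
    exact h0
  have hS1 := key (bcBig (j A) (j B) S + P') (hP' S)
  have hP1 := key P' (by
    obtain ⟨x, y, h, hh, hx⟩ := hP' 0
    rw [map_zero, zero_add] at hh
    exact ⟨x, y, h, hh, hx⟩)
  have hcomm : ∀ Q, π' (bcBig (j A) (j B) Q) = bcBig (j A) (j B) (π Q) := by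
    rintro (_ | ⟨x, y, h⟩)
    · change π' (bcBig _ _ 0) = bcBig _ _ (π 0)
      rw [map_zero, map_zero, map_zero, map_zero]
    · obtain ⟨h', hh⟩ := hπ x y h
      rw [hh]
      exact some_congr' _ _ (map_pow _ _ _).symm (map_pow _ _ _).symm
  have h3 : bcBig (j A) (j B) (2 • (π (π S) - a • π S + (ℓ : ℤ) • S)) = 0 := by
    rw [map_nsmul, map_add, map_sub, map_zsmul, map_zsmul, ← hcomm, ← hcomm]
    exact two_smul_aux π' a ℓ _ _ hS1 hP1
  exact ptMap_injective _ _ (h3.trans (map_zero _).symm)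

/-- Variant of `transfer` on torsion points of odd order: no factor `2`. -/
theorem transfer_odd_torsion (hℓ2 : ℓ ≠ 2) (A B : ZMod ℓ) [DecidableEq (RatFunc (ZMod ℓ))]
    (Φ : (twCurve A B).toAffine.Point →+ (twCurve A B).toAffine.Point)
    (hΦ : ∀ X Y (h : (twCurve A B).toAffine.Nonsingular X Y), ∃ X' Y' h',
      Φ (.some X Y h) = .some X' Y' h' ∧ X' * lamK A B ^ (ℓ - 1) = X ^ ℓ ∧
        Y' * lamK A B ^ (3 * ((ℓ - 1) / 2)) = Y ^ ℓ)
    (P0 : (twCurve A B).toAffine.Point)
    (hP0 : ∃ h, P0 = .some (lamK A B * RatFunc.X) (lamK A B ^ 2) h)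
    (a : ℤ) (hG : 2 • (Φ (Φ P0) - a • Φ P0 + (ℓ : ℤ) • P0) = 0)
    {M : Type*} [Field M] [DecidableEq M] (j : ZMod ℓ →+* M)
    (π : (shortCurve (j A) (j B)).toAffine.Point →+ (shortCurve (j A) (j B)).toAffine.Point)
    (hπ : ∀ x y (h : (shortCurve (j A) (j B)).toAffine.Nonsingular x y), ∃ h',
      π (.some x y h) = .some (x ^ ℓ) (y ^ ℓ) h')
    {n : ℕ} (hn : Odd n) (S : (shortCurve (j A) (j B)).toAffine.Point) (hS : n • S = 0) :
    π (π S) - a • π S + (ℓ : ℤ) • S = 0 := by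
  have h2 := transfer hℓ2 A B Φ hΦ P0 hP0 a hG j π hπ S
  have hnR : n • (π (π S) - a • π S + (ℓ : ℤ) • S) = 0 := by
    rw [smul_add, smul_sub, ← map_nsmul, ← map_nsmul, smul_comm n a, ← map_nsmul,
      smul_comm n (ℓ : ℤ), hS]
    simp
  obtain ⟨m, rfl⟩ := hn
  have h3 : π (π S) - a • π S + (ℓ : ℤ) • S =
      (2 * m + 1) • (π (π S) - a • π S + (ℓ : ℤ) • S) -
        m • (2 • (π (π S) - a • π S + (ℓ : ℤ) • S)) := by
    rw [add_smul, mul_comm 2 m, mul_smul, one_smul]
    abel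
  rw [h3, hnR, h2]
  simp

/-- The Frobenius endomorphism `(x, y) ↦ (x^ℓ, y^ℓ)` of `y² = x³ + A x + B` over a field `M` of
characteristic `ℓ`. -/
noncomputable def frobShort {M : Type*} [Field M] [DecidableEq M] [CharP M ℓ] (j : ZMod ℓ →+* M)
    (A B : ZMod ℓ) :
    (shortCurve (j A) (j B)).toAffine.Point →+ (shortCurve (j A) (j B)).toAffine.Point :=
  ptMap (frobenius M ℓ) (by
    rw [shortCurve_map, frobenius_def, frobenius_def, ← map_pow, ← map_pow, ZMod.pow_card,
      ZMod.pow_card])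

lemma frobShort_some {M : Type*} [Field M] [DecidableEq M] [CharP M ℓ] (j : ZMod ℓ →+* M)
    (A B : ZMod ℓ) {x y : M} (h : (shortCurve (j A) (j B)).toAffine.Nonsingular x y) :
    ∃ h', frobShort j A B (.some x y h) = .some (x ^ ℓ) (y ^ ℓ) h' :=
  ⟨_, rfl⟩

end Main

end Fermat.Agent.S52.H56
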